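/-
M59 (helper20, generator): EVEN-LEVEL twin of S44/Mono/KummerUnif.lean (helper23): the Kummer package (K-UNIF)
at the Legendre cover for EVERY odd prime `p` (in use `p = 3`) at EVEN level `2 ∣ N`; the only change is the root
lemma `m59ev_not_dvd_finrank` (`[lg_E : φ lg_F] ≤ 2`) for `s44rr_not_dvd_finrank`.  Prefix `m59kv_`.
-/
import Mathlib
import Fermat.Agent.S44.Mono.KummerQL
import Fermat.Agent.S44.Mono.KummerQU
import Fermat.Agent.S44.Mono.DataGlue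
import Fermat.Agent.S44.Res.RamInst
import Fermat.Agent.SS.Model.ALBC
import Fermat.Agent.S28.Formal.Subst
import Fermat.Agent.S44.Mono.KummerUnif
import Fermat.Agent.M59.DTwin.Even

set_option autoImplicit false
set_option linter.unusedSectionVars false
set_option linter.style.haveILetI false

noncomputable section

namespace Fermat.Agent.M59

open Fermat.Agent.S44

open ModularCurve AlgebraicCurve Fermat.Agent.JT3 Fermat.Agent.SS Fermat.Agent.S28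

local notation "Qb" => AlgebraicClosure ℚ

section Leg

variable {k : Type*} [Field k] (N : ℕ) [NeZero N]

/-- **`hirr` at the Legendre cover.** -/
theorem m59kv_not_pth_power_E (h2 : (2 : k) ≠ 0) {p : ℕ} (hp : p.Prime) (hN2 : 2 ∣ N) (hp2 : p ≠ 2)
    {f : ↥(lg_F k N)} (hf : ∀ b : ↥(lg_F k N), b ^ p ≠ f) :
    ∀ b ∈ lg_E k N, b ^ p ≠ lg_phi k (f : LaurentSeries k) := by
  intro b hb h
  letI := algebraAlong (lg_phiE (L := k) (N := N))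
  haveI : Module.Finite ↥(lg_F k N) ↥(lg_E k N) := s44rr_finiteAlong N h2
  have hnd : ¬ p ∣ Module.finrank ↥(lg_F k N) ↥(lg_E k N) :=
    (m59ev_not_dvd_finrank (k := k) N hN2 h2 p hp hp2).1
  have h' : (⟨b, hb⟩ : ↥(lg_E k N)) ^ p = algebraMap ↥(lg_F k N) ↥(lg_E k N) f :=
    Subtype.ext h
  obtain ⟨b', hb'⟩ := s44kv_pth_power_descend hp hnd h'
  exact hf b' hb'

end Leg

/-! ### the package over one field -/

section One

variable {L : Type*} [Field L] [CharZero L] {G : Type*} [Group G] [MulSemiringAction G L]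

attribute [local instance] s44kq_lsAction

/-- **the Kummer package at the Legendre cover over one field `L`** from the finite-level Kummer
data (shape of helper7's `s44mn_KData`). -/
theorem m59kv_pack_one [Finite G] [FaithfulSMul G L] (N : ℕ) [NeZero N] {p : ℕ} (hp : p.Prime)
    (hN2 : 2 ∣ N) (hp2 : p ≠ 2) {ζ β : L} (hζ : IsPrimitiveRoot ζ p) (hβ0 : β ≠ 0) {fx fv : ↥(lg_F L N)}
    (hfx : ∀ b : ↥(lg_F L N), b ^ p ≠ fx) (hfv0 : fv ≠ 0)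
    (k a : G → ℕ) (e gv : G → ↥(lg_F L N)) (cc : G → L)
    (hk : ∀ σ : G, σ • ζ = ζ ^ k σ) (ha : ∀ σ : G, σ • β = ζ ^ a σ * β)
    (hgv0 : ∀ σ, gv σ ≠ 0) (hcc0 : ∀ σ, cc σ ≠ 0)
    (relX : ∀ σ : G, coeffMap (MulSemiringAction.toRingHom G L σ) (fx : LaurentSeries L) =
      (e σ : LaurentSeries L) ^ p * (fx : LaurentSeries L) ^ k σ)
    (relV : ∀ σ : G, coeffMap (MulSemiringAction.toRingHom G L σ) (fv : LaurentSeries L) =
      algebraMap L (LaurentSeries L) (cc σ) *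
        ((fv : LaurentSeries L) * (fx : LaurentSeries L) ^ a σ) * (gv σ : LaurentSeries L) ^ p)
    {y : LaurentSeries L} (hy : y ^ p = lg_phi L (fx : LaurentSeries L)) :
    ∃ (Lb : Subfield (LaurentSeries L)) (τ : ↥Lb ≃+* ↥Lb) (c : LaurentSeries L) (g Φ h : ↥Lb),
      s44kq_Pack (G := G) (lg_E L N).toSubfield p (algebraMap L (LaurentSeries L) ζ) y
        (lg_phi L (fv : LaurentSeries L)) (algebraMap L (LaurentSeries L) β) (s44kq_lc L)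
        Lb τ c g Φ h := by
  have h2 : (2 : L) ≠ 0 := two_ne_zero
  have hfx0 : (fx : LaurentSeries L) ≠ 0 := by
    intro h0
    refine hfx 0 ?_
    rw [zero_pow hp.ne_zero]
    exact (Subtype.ext h0).symm
  have hφinj : Function.Injective (lg_phi L) := (lg_phi L).toRingHom.injective
  refine s44kq_main_ls (G := G) (lg_E L N) (fun σ x hx => ssm_al_coeffMap_mem_E_bc _ N hx) hp hζ
    k hk ?_ ?_ ?_ ?_ (lg_phi_mem_E L N fv.2) ?_ a cc (fun σ => lg_phi L (gv σ : LaurentSeries L))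
    hcc0 (fun σ => lg_phi_mem_E L N (gv σ).2) ?_ ?_ hβ0 ha
  · rw [hy]
    exact lg_phi_mem_E L N fx.2
  · intro hy0
    rw [hy0, zero_pow hp.ne_zero] at hy
    exact hfx0 (hφinj (hy.symm.trans (map_zero _).symm))
  · rw [hy]
    exact m59kv_not_pth_power_E N h2 hp hN2 hp2 hfx
  · intro σ
    refine ⟨lg_phi L (e σ : LaurentSeries L), lg_phi_mem_E L N (e σ).2, ?_⟩
    rw [mul_pow, ← pow_mul, mul_comm (k σ) p, pow_mul, hy, lg_coeffMap_phi, relX σ, map_mul,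
      map_pow, map_pow]
  · intro h0
    exact hfv0 (Subtype.ext (hφinj (h0.trans (map_zero _).symm)))
  · intro σ h0
    exact hgv0 σ (Subtype.ext (hφinj (h0.trans (map_zero _).symm)))
  · intro σ
    rw [lg_coeffMap_phi, relV σ, map_mul, map_mul, map_mul, map_pow, map_pow, hy,
      AlgHom.commutes]

end One

/-! ### two normal number fields `L₁ ≤ L₂ ⊆ ℚ̄` -/

section Step

variable (N : ℕ) [NeZero N] {p : ℕ} (H : Subgroup s44_G) {L₁ L₂ : IntermediateField ℚ Qb}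
  (hle : L₁ ≤ L₂)

variable [Normal ℚ L₁] [Normal ℚ L₂]

attribute [local instance] s44kq_lsAction

/-- **(K-UNIF), one step**: the package over `L₁` gives the package over `L₂ ⊇ L₁`. -/
theorem m59kv_step (hp : p.Prime) (hN2 : 2 ∣ N) (hp2 : p ≠ 2) {ζ1 β1 : ↥L₁} (hζ : IsPrimitiveRoot ζ1 p)
    {fx1 fv1 : ↥(lg_F ↥L₁ N)} {y : LaurentSeries ↥L₁}
    (hy : y ^ p = lg_phi ↥L₁ (fx1 : LaurentSeries ↥L₁))
    (hfx2 : ∀ b : ↥(lg_F ↥L₂ N), b ^ p ≠ ssm_al_bcF (s44kv_incl hle) N fx1)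
    {Lb₁ : Subfield (LaurentSeries ↥L₁)} {τ₁ : ↥Lb₁ ≃+* ↥Lb₁} {c : LaurentSeries ↥L₁}
    {g Φ h : ↥Lb₁}
    (P₁ : s44kq_Pack (G := ↥(s44mn_G H L₁)) (lg_E ↥L₁ N).toSubfield p
      (algebraMap ↥L₁ (LaurentSeries ↥L₁) ζ1) y (lg_phi ↥L₁ (fv1 : LaurentSeries ↥L₁))
      (algebraMap ↥L₁ (LaurentSeries ↥L₁) β1) (s44kq_lc ↥L₁) Lb₁ τ₁ c g Φ h) :
    ∃ (Lb₂ : Subfield (LaurentSeries ↥L₂)) (τ₂ : ↥Lb₂ ≃+* ↥Lb₂)
      (hmap : ∀ z ∈ Lb₁, coeffMap (s44kv_incl hle) z ∈ Lb₂),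
      s44kq_Pack (G := ↥(s44mn_G H L₂)) (lg_E ↥L₂ N).toSubfield p
        (algebraMap ↥L₂ (LaurentSeries ↥L₂) (s44kv_incl hle ζ1)) (coeffMap (s44kv_incl hle) y)
        (lg_phi ↥L₂ ((ssm_al_bcF (s44kv_incl hle) N fv1 : ↥(lg_F ↥L₂ N)) : LaurentSeries ↥L₂))
        (algebraMap ↥L₂ (LaurentSeries ↥L₂) (s44kv_incl hle β1)) (s44kq_lc ↥L₂) Lb₂ τ₂
        (coeffMap (s44kv_incl hle) c) (s44kq_mapLb (coeffMap (s44kv_incl hle)) hmap g)
        (s44kq_mapLb (coeffMap (s44kv_incl hle)) hmap Φ)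
        (s44kq_mapLb (coeffMap (s44kv_incl hle)) hmap h) ∧
      ∀ (j : ℕ) (z : ↥Lb₁), (⇑τ₂)^[j] (s44kq_mapLb (coeffMap (s44kv_incl hle)) hmap z) =
        s44kq_mapLb (coeffMap (s44kv_incl hle)) hmap ((⇑τ₁)^[j] z) := by
  obtain ⟨ρ, hρ⟩ := s44kv_exists_rho H hle
  have h2 : (2 : ↥L₂) ≠ 0 := two_ne_zero
  have hyE : y ^ p ∈ lg_E ↥L₁ N := by
    rw [hy]
    exact lg_phi_mem_E ↥L₁ N fx1.2
  have hirr : ∀ b ∈ lg_E ↥L₂ N, b ^ p ≠ coeffMap (s44kv_incl hle) y ^ p := by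
    rw [← map_pow, hy, lg_coeffMap_phi]
    exact m59kv_not_pth_power_E N h2 hp hN2 hp2 hfx2
  have key := s44kq_pack_transport_ls (G₁ := ↥(s44mn_G H L₁)) (G₂ := ↥(s44mn_G H L₂))
    (s44kv_incl hle) ρ hρ (E₁ := lg_E ↥L₁ N) (lg_E ↥L₂ N)
    (fun x hx => ssm_al_coeffMap_mem_E_bc _ N hx)
    (fun σ x hx => ssm_al_coeffMap_mem_E_bc _ N hx) hp hζ hyE hirr P₁
  rw [lg_coeffMap_phi] at key
  exact key

end Step

/-! ### (K-UNIF) -/

section Unif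

variable (N : ℕ) [NeZero N] {p : ℕ} [hpF : Fact p.Prime]

local notation "FN" => modularFunctionFieldBar N

attribute [local instance] s44kq_lsAction

/-- **(K-UNIF)**: the Kummer package at the Legendre cover over EVERY large normal number field
`L'`, with `y`, `c`, `g`, `Φ` and all `τ^j h` having images in `ℚ̄((q))` independent of `L'`. -/
theorem m59kv_unif (hN2 : 2 ∣ N) (hp2 : p ≠ 2) {ζ : Qb} (hζ : IsPrimitiveRoot ζ p) (β : Qb) {X : JZero N}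
    (hX : p • X = 0) (V : JZero N) (hβ0 : β ≠ 0) (hV : p • V = 0) (hX0 : X ≠ 0) :
    ∃ (T₁ : Finset Qb) (fX fV : FN) (ybar cbar gbar Φbar : LaurentSeries Qb)
      (hbar : ℕ → LaurentSeries Qb),
      s44f_Rep N p X fX ∧ s44f_Rep N p V fV ∧ (fX : LaurentSeries Qb).leadingCoeff = 1 ∧
      ybar ^ p = lg_phi Qb (fX : LaurentSeries Qb) ∧
      ∀ L' : IntermediateField ℚ Qb, FiniteDimensional ℚ L' → ∀ _ : Normal ℚ L',
        (↑T₁ : Set Qb) ⊆ L' →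
        ∃ (ζ1 β1 : ↥L') (fx1 fv1 : ↥(lg_F ↥L' N)) (y c : LaurentSeries ↥L')
          (Lb : Subfield (LaurentSeries ↥L')) (τ : ↥Lb ≃+* ↥Lb) (g Φ h : ↥Lb),
          algebraMap ↥L' Qb ζ1 = ζ ∧ algebraMap ↥L' Qb β1 = β ∧
          ssm_al_iotaF ↥L' N fx1 = fX ∧ ssm_al_iotaF ↥L' N fv1 = fV ∧
          y ^ p = lg_phi ↥L' (fx1 : LaurentSeries ↥L') ∧
          s44kq_Pack (G := ↥(s44mn_G (s44md_H hζ β hX V) L')) (lg_E ↥L' N).toSubfield p
            (algebraMap ↥L' (LaurentSeries ↥L') ζ1) y (lg_phi ↥L' (fv1 : LaurentSeries ↥L'))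
            (algebraMap ↥L' (LaurentSeries ↥L') β1) (s44kq_lc ↥L') Lb τ c g Φ h ∧
          ssm_al_iota ↥L' y = ybar ∧ ssm_al_iota ↥L' c = cbar ∧
          ssm_al_iota ↥L' (g : LaurentSeries ↥L') = gbar ∧
          ssm_al_iota ↥L' (Φ : LaurentSeries ↥L') = Φbar ∧
          ∀ j : ℕ, ssm_al_iota ↥L' (((⇑τ)^[j] h : ↥Lb) : LaurentSeries ↥L') = hbar j := by
  classical
  have hp : p.Prime := hpF.out
  have hp0 : p ≠ 0 := hp.ne_zero
  obtain ⟨T0, hT0⟩ := s44mn_glue N hζ β hX V hβ0 hV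
  obtain ⟨L₁, hfd₁, hn₁, hT0L₁, -⟩ := s44b_exists_nf N ∅ T0
  haveI := hfd₁
  haveI := hn₁
  obtain ⟨T₁, hT₁⟩ := s44kv_exists_gen L₁
  obtain ⟨ζ1, β1, fx1, fv1, hζ1, hβ1, hrepX, hrepV, hlc, hord, k, a, e, gv, cc, KD⟩ :=
    hT0 L₁ hfd₁ hn₁ hT0L₁
  have hinj₁ : Function.Injective (algebraMap ↥L₁ Qb) := (algebraMap ↥L₁ Qb).injective
  have hζ1' : IsPrimitiveRoot ζ1 p :=
    IsPrimitiveRoot.of_map_of_injective (f := algebraMap ↥L₁ Qb) (by rw [hζ1]; exact hζ) hinj₁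
  have hβ1' : β1 ≠ 0 := by
    rintro rfl
    rw [map_zero] at hβ1
    exact hβ0 hβ1.symm
  have hfx10 : (fx1 : LaurentSeries ↥L₁) ≠ 0 := by
    intro h0
    apply hrepX.1
    rw [show fx1 = 0 from Subtype.ext h0, map_zero]
  have hfv10 : fv1 ≠ 0 := by
    rintro rfl
    exact hrepV.1 (map_zero _)
  obtain ⟨y₁, hy₁⟩ := s44kv_exists_root hp0 hfx10 hlc hord
  obtain ⟨Lb₁, τ₁, c₁, g₁, Φ₁, h₁, P₁⟩ := m59kv_pack_one
    (G := ↥(s44mn_G (s44md_H hζ β hX V) L₁)) N hp hN2 hp2 hζ1' hβ1'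
    (s44mn_not_pth_power N hp0 hX0 L₁ hrepX) hfv10 k a e gv cc KD.zeta KD.beta KD.gv_ne KD.cc_ne
    KD.relX KD.relV hy₁
  refine ⟨T₁, ssm_al_iotaF ↥L₁ N fx1, ssm_al_iotaF ↥L₁ N fv1, ssm_al_iota ↥L₁ y₁,
    ssm_al_iota ↥L₁ c₁, ssm_al_iota ↥L₁ (g₁ : LaurentSeries ↥L₁),
    ssm_al_iota ↥L₁ (Φ₁ : LaurentSeries ↥L₁),
    fun j => ssm_al_iota ↥L₁ (((⇑τ₁)^[j] h₁ : ↥Lb₁) : LaurentSeries ↥L₁), hrepX, hrepV, ?_, ?_, ?_⟩
  · rw [ssm_al_coe_iotaF, s44kq_leadingCoeff_coeffMap hinj₁, hlc, map_one]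
  · rw [ssm_al_coe_iotaF, ← map_pow, hy₁]
    exact lg_coeffMap_phi _ _ _
  · intro L' hfd hn hsub
    haveI := hfd
    haveI := hn
    have hle : L₁ ≤ L' := hT₁ L' hsub
    have hfx2 : ∀ b : ↥(lg_F ↥L' N), b ^ p ≠ ssm_al_bcF (s44kv_incl hle) N fx1 := by
      refine s44mn_not_pth_power N hp0 hX0 L' ?_
      rw [s44kv_iotaF_bcF]
      exact hrepX
    obtain ⟨Lb₂, τ₂, hmap, P₂, hiter⟩ := m59kv_step N (s44md_H hζ β hX V) hle hp hN2 hp2 hζ1' hy₁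
      hfx2 P₁
    refine ⟨s44kv_incl hle ζ1, s44kv_incl hle β1, ssm_al_bcF (s44kv_incl hle) N fx1,
      ssm_al_bcF (s44kv_incl hle) N fv1, coeffMap (s44kv_incl hle) y₁,
      coeffMap (s44kv_incl hle) c₁, Lb₂, τ₂, s44kq_mapLb (coeffMap (s44kv_incl hle)) hmap g₁,
      s44kq_mapLb (coeffMap (s44kv_incl hle)) hmap Φ₁,
      s44kq_mapLb (coeffMap (s44kv_incl hle)) hmap h₁, ?_, ?_, s44kv_iotaF_bcF N hle fx1,
      s44kv_iotaF_bcF N hle fv1, ?_, P₂, s44kv_iota_incl hle y₁, s44kv_iota_incl hle c₁,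
      s44kv_iota_incl hle _, s44kv_iota_incl hle _, fun j => ?_⟩
    · rw [s44kv_incl_algebraMap, hζ1]
    · rw [s44kv_incl_algebraMap, hβ1]
    · rw [← map_pow, hy₁]
      exact lg_coeffMap_phi _ _ _
    · rw [hiter j h₁]
      exact s44kv_iota_incl hle _

end Unif

end Fermat.Agent.M59
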