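/-
M59 (helper20, generator): EVEN-LEVEL twin of `s44kw_unif_rat` (S44/Mono/KummerRat.lean, helper23).  Prefix `m59kw_`.
-/
import Mathlib
import Fermat.Agent.S44.Mono.KummerUnif
import Fermat.Agent.S44.Mono.KummerRat
import Fermat.Agent.M59.DTwin.S44.KummerUnif
import Fermat.Agent.S44.Mono.RationalInst
import Fermat.Agent.JT3.Inst.FunFieldFacts

set_option autoImplicit false
set_option linter.unusedSectionVars false
set_option linter.style.haveILetI false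

noncomputable section

namespace Fermat.Agent.M59

open Fermat.Agent.S44

open ModularCurve AlgebraicCurve Fermat.Agent.JT3 Fermat.Agent.SS Fermat.Agent.S28
  IntermediateField Polynomial

local notation "Qb" => AlgebraicClosure ℚ
local notation "GQ" => (AlgebraicClosure ℚ ≃ₐ[ℚ] AlgebraicClosure ℚ)

/-! ### `Lb = E(y)` as an intermediate field -/

section UnifRat

variable (N : ℕ) [NeZero N] {p : ℕ} [hpF : Fact p.Prime]

local notation "FN" => modularFunctionFieldBar N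

attribute [local instance] s44kq_lsAction

set_option synthInstance.maxHeartbeats 400000
set_option maxHeartbeats 1000000

/-- **(K-UNIF) + [S-RAT]**: the Kummer package of `m59kv_unif` with `Lb = E(y)` as an intermediate
field, and the rationality of the zeros and poles of `Φ` and of all `τ^j h`. -/
theorem m59kw_unif_rat (hN2 : 2 ∣ N) (hp2 : p ≠ 2) {ζ : Qb} (hζ : IsPrimitiveRoot ζ p) (β : Qb) {X : JZero N}
    (hX : p • X = 0) (V : JZero N) (hβ0 : β ≠ 0) (hV : p • V = 0) (hX0 : X ≠ 0) :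
    ∃ (T₂ : Finset Qb) (fX fV : FN) (ybar cbar gbar Φbar : LaurentSeries Qb)
      (hbar : ℕ → LaurentSeries Qb),
      s44f_Rep N p X fX ∧ s44f_Rep N p V fV ∧ (fX : LaurentSeries Qb).leadingCoeff = 1 ∧
      ybar ^ p = lg_phi Qb (fX : LaurentSeries Qb) ∧
      ∀ L' : IntermediateField ℚ Qb, FiniteDimensional ℚ L' → ∀ _ : Normal ℚ L',
        (↑T₂ : Set Qb) ⊆ L' →
        ∃ (ζ1 β1 : ↥L') (fx1 fv1 : ↥(lg_F ↥L' N)) (y c : LaurentSeries ↥L')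
          (τ : ↥(s44kw_F ↥L' N y).toSubfield ≃+* ↥(s44kw_F ↥L' N y).toSubfield)
          (g Φ h : ↥(s44kw_F ↥L' N y).toSubfield),
          algebraMap ↥L' Qb ζ1 = ζ ∧ algebraMap ↥L' Qb β1 = β ∧
          ssm_al_iotaF ↥L' N fx1 = fX ∧ ssm_al_iotaF ↥L' N fv1 = fV ∧
          y ^ p = lg_phi ↥L' (fx1 : LaurentSeries ↥L') ∧
          s44kq_Pack (G := ↥(s44mn_G (s44md_H hζ β hX V) L')) (lg_E ↥L' N).toSubfield p
            (algebraMap ↥L' (LaurentSeries ↥L') ζ1) y (lg_phi ↥L' (fv1 : LaurentSeries ↥L'))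
            (algebraMap ↥L' (LaurentSeries ↥L') β1) (s44kq_lc ↥L') (s44kw_F ↥L' N y).toSubfield
            τ c g Φ h ∧
          ssm_al_iota ↥L' y = ybar ∧ ssm_al_iota ↥L' c = cbar ∧
          ssm_al_iota ↥L' (g : LaurentSeries ↥L') = gbar ∧
          ssm_al_iota ↥L' (Φ : LaurentSeries ↥L') = Φbar ∧
          (∀ j : ℕ, ssm_al_iota ↥L'
            (((⇑τ)^[j] h : ↥(s44kw_F ↥L' N y).toSubfield) : LaurentSeries ↥L') = hbar j) ∧
          (∀ v : Place ↥L' ↥(s44kw_F ↥L' N y),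
            v.ord (⟨(Φ : LaurentSeries ↥L'), Φ.2⟩ : ↥(s44kw_F ↥L' N y)) ≠ 0 → ss_RatPlace v) ∧
          ∀ (j : ℕ) (v : Place ↥L' ↥(s44kw_F ↥L' N y)),
            v.ord (⟨(((⇑τ)^[j] h : ↥(s44kw_F ↥L' N y).toSubfield) : LaurentSeries ↥L'),
              ((⇑τ)^[j] h).2⟩ : ↥(s44kw_F ↥L' N y)) ≠ 0 → ss_RatPlace v := by
  classical
  have hp : p.Prime := hpF.out
  obtain ⟨T₁, fX, fV, ybar, cbar, gbar, Φbar, hbar, hrX, hrV, hlc, hyb, hall⟩ :=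
    m59kv_unif N hN2 hp2 hζ β hX V hβ0 hV hX0
  -- a reference field
  obtain ⟨L₀, hfd₀, hn₀, hT₁L₀, -⟩ := s44b_exists_nf N ∅ T₁
  haveI := hfd₀
  haveI := hn₀
  obtain ⟨s₀, hs₀⟩ := s44kw_exists_adjoin L₀
  obtain ⟨ζ0, β0, fx0, fv0, y₀, c₀, Lb₀, τ₀, g₀, Φ₀, h₀, -, -, -, -, -, P₀, hyb₀, -, -, hΦ₀, hh₀⟩ :=
    hall L₀ hfd₀ hn₀ hT₁L₀
  have hdef : s44mr_DefOver (s44kw_F Qb N ybar) s₀ := by
    rw [← hyb₀]
    exact s44kw_defOver N L₀ hs₀ y₀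
  have hybE : ybar ^ p ∈ lg_E Qb N := by
    rw [hyb]
    refine lg_phi_mem_E Qb N ?_
    rw [lg_F_eq_bar]
    exact fX.2
  haveI : FiniteDimensional Qb⟮s44kw_lam Qb N ybar⟯ ↥(s44kw_F Qb N ybar) :=
    s44kw_finite Qb N hp.ne_zero hybE
  have hM₀ : s44mr_IsModel ↥L₀ (s44kw_F ↥L₀ N y₀) (s44kw_F Qb N ybar) := by
    have := s44kw_isModel N L₀ y₀
    rwa [hyb₀] at this
  have hLb₀ := s44kw_Lb_eq P₀
  have hΦmem : Φbar ∈ s44kw_F Qb N ybar := by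
    rw [← hΦ₀]
    exact hM₀.1 _ (hLb₀.le Φ₀.2)
  have hhmem : ∀ j, hbar j ∈ s44kw_F Qb N ybar := fun j => by
    rw [← hh₀ j]
    exact hM₀.1 _ (hLb₀.le ((⇑τ₀)^[j] h₀).2)
  obtain ⟨sΦ, hsΦ⟩ := s44mr_rational_model.{0} hdef (s44kw_lam Qb N ybar) ⟨Φbar, hΦmem⟩
  have hsh : ∀ j, ∃ s : Finset Qb, _ := fun j =>
    s44mr_rational_model.{0} hdef (s44kw_lam Qb N ybar) ⟨hbar j, hhmem j⟩
  choose sh hsh using hsh
  refine ⟨T₁ ∪ s₀ ∪ sΦ ∪ (Finset.range p).biUnion sh, fX, fV, ybar, cbar, gbar, Φbar, hbar, hrX,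
    hrV, hlc, hyb, ?_⟩
  intro L' hfd hn hsub
  haveI := hfd
  haveI := hn
  have hmem : ∀ a, a ∈ (T₁ ∪ s₀ ∪ sΦ ∪ (Finset.range p).biUnion sh : Finset Qb) → a ∈ L' :=
    fun a ha => hsub (Finset.mem_coe.2 ha)
  have hrange : ∀ s : Finset Qb, (∀ a ∈ s, a ∈ L') →
      (↑s : Set Qb) ⊆ Set.range (algebraMap ↥L' Qb) := fun s hs a ha =>
    ⟨⟨a, hs a (Finset.mem_coe.1 ha)⟩, rfl⟩
  obtain ⟨ζ1, β1, fx1, fv1, y, c, Lb, τ, g, Φ, h, e1, e2, e3, e4, e5, P, b1, b2, b3, b4, b5⟩ :=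
    hall L' hfd hn (fun a ha => hmem a (by
      rw [Finset.mem_coe] at ha
      simp [ha]))
  have hLb := s44kw_Lb_eq P
  subst hLb
  have hM : s44mr_IsModel ↥L' (s44kw_F ↥L' N y) (s44kw_F Qb N ybar) := by
    have := s44kw_isModel N L' y
    rwa [b1] at this
  have hs₀L : (↑s₀ : Set Qb) ⊆ Set.range (algebraMap ↥L' Qb) :=
    hrange s₀ fun a ha => hmem a (by simp [ha])
  refine ⟨ζ1, β1, fx1, fv1, y, c, τ, g, Φ, h, e1, e2, e3, e4, e5, P, b1, b2, b3, b4, b5, ?_, ?_⟩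
  · intro v hv
    exact hsΦ ↥L' (s44kw_F ↥L' N y) hs₀L (hrange sΦ fun a ha => hmem a (by simp [ha])) hM
      ⟨(Φ : LaurentSeries ↥L'), Φ.2⟩ b4 v hv
  · intro j v hv
    have hjlt : j % p < p := Nat.mod_lt _ hp.pos
    have hiter : (⇑τ)^[j] h = (⇑τ)^[j % p] h := s44kw_iterate_mod _ P.τ_pow j h
    have hv' : v.ord (⟨(((⇑τ)^[j % p] h : ↥(s44kw_F ↥L' N y).toSubfield) : LaurentSeries ↥L'),
        ((⇑τ)^[j % p] h).2⟩ : ↥(s44kw_F ↥L' N y)) ≠ 0 := by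
      have e : (⟨(((⇑τ)^[j] h : ↥(s44kw_F ↥L' N y).toSubfield) : LaurentSeries ↥L'),
          ((⇑τ)^[j] h).2⟩ : ↥(s44kw_F ↥L' N y)) =
          ⟨(((⇑τ)^[j % p] h : ↥(s44kw_F ↥L' N y).toSubfield) : LaurentSeries ↥L'),
            ((⇑τ)^[j % p] h).2⟩ := Subtype.ext (congrArg Subtype.val hiter)
      rwa [← e]
    exact hsh (j % p) ↥L' (s44kw_F ↥L' N y) hs₀L
      (hrange (sh (j % p)) fun a ha => hmem a (by
        refine Finset.mem_union_right _ (Finset.mem_biUnion.2 ⟨j % p, Finset.mem_range.2 hjlt, ha⟩)))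
      hM ⟨_, ((⇑τ)^[j % p] h).2⟩ (b5 (j % p)) v hv'

end UnifRat

end Fermat.Agent.M59
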