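/-
M59 (helper20, generator): EVEN-LEVEL twin of `s44gn_pair` (S44/Mono/LegPairNF.lean, helper23): the two-node theorem at
the Legendre cover over a normal number field for EVERY odd prime `p` (in use `p = 3`), `2 ∣ M`.  Prefix `m59gn_`.
-/
import Mathlib
import Fermat.Agent.S44.Mono.LegPair
import Fermat.Agent.S44.Mono.PackRestrict
import Fermat.Agent.S44.Mono.InertGlue
import Fermat.Agent.S44.Mono.KummerUnif
import Fermat.Agent.S44.Tor.NF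
import Fermat.Agent.S44.Mono.MainOrdV
import Fermat.Agent.S44.Mono.LegPairNF
import Fermat.Agent.M59.DTwin.S44.KummerUnif

set_option autoImplicit false
set_option linter.unusedSectionVars false
set_option linter.unusedVariables false
set_option linter.style.haveILetI false

noncomputable section

namespace Fermat.Agent.M59

open Fermat.Agent.S44

open Fermat.Agent.SS Fermat.Agent.JT3 IsLocalRing Polynomial AlgebraicCurve ModularCurve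

local notation "Qb" => AlgebraicClosure ℚ

section NF

variable (A : ValuationSubring Qb) {p : ℕ} [hp : Fact p.Prime] (hA : A.LiesOverPrime p)
  (M : ℕ) [NeZero M] [NeZero p] [NeZero (M * p)] (hpM : ¬ p ∣ M) (hp2 : ¬ 2 ∣ p) (hM2 : 2 ∣ M)
  (L' : IntermediateField ℚ Qb) [NumberField ↥L'] [Normal ℚ L']
  [IsDiscreteValuationRing ↥(A.comap (algebraMap ↥L' Qb))]
  [CharP (ResidueField ↥(A.comap (algebraMap ↥L' Qb))) p]
  {π : ↥(A.comap (algebraMap ↥L' Qb))} (hπ : Irreducible π)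
  (ζM : ↥L') (hζM : IsPrimitiveRoot ζM M)

attribute [local instance] s44kq_lsAction

include hA hζM hM2 in
set_option synthInstance.maxHeartbeats 400000 in
set_option maxHeartbeats 1600000 in
/-- **THE TWO-NODE THEOREM AT THE LEGENDRE COVER OVER A NORMAL NUMBER FIELD**, from the conclusions of
`s44mr_unif`, `s44mci_inst_frame`, `s44gv_ord_rep`. -/
theorem m59gn_pair
    {H : Subgroup (Qb ≃ₐ[ℚ] Qb)} (hΓH : A.inertiaSubgroupIn ℚ ≤ H)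
    {ζ1 β1 : ↥L'} (hζ1p : ζ1 ^ p = 1) (hζ11 : ζ1 ≠ 1)
    (hβ1 : β1 ∈ A.comap (algebraMap ↥L' Qb)) (hβ1i : β1⁻¹ ∈ A.comap (algebraMap ↥L' Qb))
    (hβ10 : β1 ≠ 0)
    {fx1 fv1 : ↥(lg_F ↥L' (M * p))} {y c : LaurentSeries ↥L'}
    {Lb : Subfield (LaurentSeries ↥L')} {τ : ↥Lb ≃+* ↥Lb} {g Φ h : ↥Lb}
    (hy : y ^ p = lg_phi ↥L' (fx1 : LaurentSeries ↥L'))
    (Pk : s44kq_Pack (G := ↥(s44mn_G H L')) (lg_E ↥L' (M * p)).toSubfield p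
      (algebraMap ↥L' (LaurentSeries ↥L') ζ1) y (lg_phi ↥L' (fv1 : LaurentSeries ↥L'))
      (algebraMap ↥L' (LaurentSeries ↥L') β1) (s44kq_lc ↥L') Lb τ c g Φ h)
    (hR : ∀ [Algebra ↥L' ↥Lb],
      (∀ c' : ↥L', ((algebraMap ↥L' ↥Lb c' : ↥Lb) : LaurentSeries ↥L') =
        algebraMap ↥L' (LaurentSeries ↥L') c') →
      (∀ v : Place ↥L' ↥Lb, v.ord Φ ≠ 0 → ss_RatPlace v) ∧
      ∀ (j : ℕ) (v : Place ↥L' ↥Lb), v.ord ((⇑τ)^[j] h) ≠ 0 → ss_RatPlace v)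
    (hirrF : ∀ b : ↥(lg_F ↥L' (M * p)), b ^ p ≠ fx1)
    (hX4 : s44td_phi ↥L' (M * p) fx1 ≠ 0 ∧
      (∀ v : Place ↥L' (lg_E ↥L' (M * p)), (p : ℤ) ∣ v.ord (s44td_phi ↥L' (M * p) fx1)) ∧
      (∀ v : Place ↥L' (lg_E ↥L' (M * p)), v.ord (s44td_phi ↥L' (M * p) fx1) ≠ 0 →
        ss_RatPlace v) ∧
      ∀ (π : ↥(A.comap (algebraMap ↥L' Qb))) (_hπ : Irreducible π)
        (σ0 : ↥(A.comap (algebraMap ↥L' Qb)) ≃+* ↥(A.comap (algebraMap ↥L' Qb))) (e k : ℕ)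
        (ζ : ↥(A.comap (algebraMap ↥L' Qb))) (_D : s44t_PData π σ0 p e k ζ),
        s44t_GlobForm π (lg_lamE (L := ↥L') (M * p)) p (p * e + 1)
          (s44td_phi ↥L' (M * p) fx1))
    (hV2 : lg_phiE (L := ↥L') (N := M * p) fv1 ≠ 0 ∧
      ∀ v : Place ↥L' (lg_E ↥L' (M * p)),
        (p : ℤ) ∣ v.ord (lg_phiE (L := ↥L') (N := M * p) fv1))
    -- the two crossing points, with their uniform coordinates
    (𝔫 𝔫' : Ideal ↥(fc_chart ↥(A.comap (algebraMap ↥L' Qb))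
      ({lg_lamE (M * p)} : Set ↥(lg_E ↥L' (M * p)))))
    [h𝔫 : 𝔫.IsMaximal] [h𝔫' : 𝔫'.IsMaximal]
    (h1 : ssm_tp_P (fc_chart ↥(A.comap (algebraMap ↥L' Qb))
        ({lg_lamE (M * p)} : Set ↥(lg_E ↥L' (M * p))))
      (ssm_gl_V1 (A.comap (algebraMap ↥L' Qb)) hπ M p) ≤ 𝔫)
    (h1' : ssm_tp_P (fc_chart ↥(A.comap (algebraMap ↥L' Qb))
        ({lg_lamE (M * p)} : Set ↥(lg_E ↥L' (M * p))))
      (ssm_gl_V1 (A.comap (algebraMap ↥L' Qb)) hπ M p) ≤ 𝔫')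
    {u v u' v' : ↥(lg_E ↥L' (M * p))}
    (hU : s44mu_NodeAtU π (fc_chart1_le (lg_lamE (M * p) : ↥(lg_E ↥L' (M * p))))
      (ssm_tp_P (fc_chart ↥(A.comap (algebraMap ↥L' Qb)) ({lg_lamE (M * p), (lg_lamE (M * p))⁻¹} :
        Set ↥(lg_E ↥L' (M * p)))) (ssm_gl_V1 (A.comap (algebraMap ↥L' Qb)) hπ M p))
      (ssm_tp_P (fc_chart ↥(A.comap (algebraMap ↥L' Qb)) ({lg_lamE (M * p), (lg_lamE (M * p))⁻¹} :
        Set ↥(lg_E ↥L' (M * p)))) (ssm_gl_V2 (A.comap (algebraMap ↥L' Qb)) hπ M p hp2 hpM))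
      𝔫 u v ((p : ℕ) : ↥(A.comap (algebraMap ↥L' Qb))))
    (hU' : s44mu_NodeAtU π (fc_chart1_le (lg_lamE (M * p) : ↥(lg_E ↥L' (M * p))))
      (ssm_tp_P (fc_chart ↥(A.comap (algebraMap ↥L' Qb)) ({lg_lamE (M * p), (lg_lamE (M * p))⁻¹} :
        Set ↥(lg_E ↥L' (M * p)))) (ssm_gl_V1 (A.comap (algebraMap ↥L' Qb)) hπ M p))
      (ssm_tp_P (fc_chart ↥(A.comap (algebraMap ↥L' Qb)) ({lg_lamE (M * p), (lg_lamE (M * p))⁻¹} :
        Set ↥(lg_E ↥L' (M * p)))) (ssm_gl_V2 (A.comap (algebraMap ↥L' Qb)) hπ M p hp2 hpM))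
      𝔫' u' v' ((p : ℕ) : ↥(A.comap (algebraMap ↥L' Qb))))
    (hσu : ∀ σ : ↥L' ≃+* ↥L', ss_Inert (A.comap (algebraMap ↥L' Qb)) σ →
      ssm_sg_aut (M * p) σ u = u)
    (hσu' : ∀ σ : ↥L' ≃+* ↥L', ss_Inert (A.comap (algebraMap ↥L' Qb)) σ →
      ssm_sg_aut (M * p) σ u' = u')
    (ν ν' : ↥(lg_E ↥L' (M * p)) → ℤ) :
    haveI := s44mci_leg_isAlg ↥L' (A.comap (algebraMap ↥L' Qb)) (M * p)
    haveI := s44mci_leg_noeth ↥L' (A.comap (algebraMap ↥L' Qb)) (M * p)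
    haveI := s44mci_leg_ic ↥L' (A.comap (algebraMap ↥L' Qb)) (M * p)
    haveI := ssl_loc_isNoetherianRing (F0 := ↥(lg_E ↥L' (M * p))) 𝔫
    haveI := ssl_loc_isLocalRing (F0 := ↥(lg_E ↥L' (M * p))) 𝔫
    haveI := ssl_loc_isNoetherianRing (F0 := ↥(lg_E ↥L' (M * p))) 𝔫'
    haveI := ssl_loc_isLocalRing (F0 := ↥(lg_E ↥L' (M * p))) 𝔫'
    ∀ (huS : u ∈ ssl_locSub ↥(lg_E ↥L' (M * p)) 𝔫)
      (huS' : u' ∈ ssl_locSub ↥(lg_E ↥L' (M * p)) 𝔫'),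
    s44nu_IsNu
        (algebraMap ↥(fc_chart ↥(A.comap (algebraMap ↥L' Qb))
            ({lg_lamE (M * p)} : Set ↥(lg_E ↥L' (M * p))))
          (ssl_locSub ↥(lg_E ↥L' (M * p)) 𝔫)
          (algebraMap ↥(A.comap (algebraMap ↥L' Qb)) ↥(fc_chart ↥(A.comap (algebraMap ↥L' Qb))
            ({lg_lamE (M * p)} : Set ↥(lg_E ↥L' (M * p)))) π))
        (⟨u, huS⟩ : ssl_locSub ↥(lg_E ↥L' (M * p)) 𝔫)
        (s44tl_br 𝔫 (fc_chart1_le (lg_lamE (M * p) : ↥(lg_E ↥L' (M * p))))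
          (ssm_tp_P (fc_chart ↥(A.comap (algebraMap ↥L' Qb))
            ({lg_lamE (M * p), (lg_lamE (M * p))⁻¹} : Set ↥(lg_E ↥L' (M * p))))
            (ssm_gl_V1 (A.comap (algebraMap ↥L' Qb)) hπ M p))) ν →
    s44nu_IsNu
        (algebraMap ↥(fc_chart ↥(A.comap (algebraMap ↥L' Qb))
            ({lg_lamE (M * p)} : Set ↥(lg_E ↥L' (M * p))))
          (ssl_locSub ↥(lg_E ↥L' (M * p)) 𝔫')
          (algebraMap ↥(A.comap (algebraMap ↥L' Qb)) ↥(fc_chart ↥(A.comap (algebraMap ↥L' Qb))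
            ({lg_lamE (M * p)} : Set ↥(lg_E ↥L' (M * p)))) π))
        (⟨u', huS'⟩ : ssl_locSub ↥(lg_E ↥L' (M * p)) 𝔫')
        (s44tl_br 𝔫' (fc_chart1_le (lg_lamE (M * p) : ↥(lg_E ↥L' (M * p))))
          (ssm_tp_P (fc_chart ↥(A.comap (algebraMap ↥L' Qb))
            ({lg_lamE (M * p), (lg_lamE (M * p))⁻¹} : Set ↥(lg_E ↥L' (M * p))))
            (ssm_gl_V1 (A.comap (algebraMap ↥L' Qb)) hπ M p))) ν' →
    ν (lg_phiE (L := ↥L') (N := M * p) fv1) ≡ ν' (lg_phiE (L := ↥L') (N := M * p) fv1)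
      [ZMOD (p : ℤ)] := by
  intro huS huS' hν hν'
  classical
  have hpp : p.Prime := hp.out
  -- `p ∈ 𝔪(O')`
  have hpm : ((p : ℕ) : ↥(A.comap (algebraMap ↥L' Qb))) ∈
      maximalIdeal ↥(A.comap (algebraMap ↥L' Qb)) :=
    ssm_fln_q_mem ↥L' (A.comap (algebraMap ↥L' Qb)) p
  have hpO : (p : ↥L') ∈ (A.comap (algebraMap ↥L' Qb)).nonunits := by
    have h2 := ValuationSubring.coe_mem_nonunits_iff.2 hpm
    have : ((((p : ℕ) : ↥(A.comap (algebraMap ↥L' Qb))) : ↥(A.comap (algebraMap ↥L' Qb))) : ↥L') =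
        (p : ↥L') := by push_cast; rfl
    rwa [this] at h2
  -- the arithmetic data at `p`
  obtain ⟨e, D⟩ := s44t_pdata (A.comap (algebraMap ↥L' Qb)) hπ hp2 hpO (RingEquiv.refl ↥L')
    (fun z hz => hz) (fun z hz => hz) hζ1p hζ11 (k := 1) (by rw [pow_one]; rfl)
  -- the inertia image
  have hle : s44mn_G (A.inertiaSubgroupIn ℚ) L' ≤ s44mn_G H L' := s44mn_G_mono hΓH L'
  have Pk' := s44kq_pack_le hle Pk
  have hin : ∀ g : ↥(s44mn_G (A.inertiaSubgroupIn ℚ) L'),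
      ss_Inert (A.comap (algebraMap ↥L' Qb))
        (MulSemiringAction.toRingEquiv ↥(s44mn_G (A.inertiaSubgroupIn ℚ) L') ↥L' g) :=
    fun g x hx => s44mi_inert A L' g.2 x hx
  obtain ⟨w, hw⟩ := D.p_eq
  have hbase : ∀ c : ↥L', c ≠ 0 →
      (∀ g : ↥(s44mn_G (A.inertiaSubgroupIn ℚ) L'), g • c = c) →
      ∃ (n : ℤ) (ω : (↥(A.comap (algebraMap ↥L' Qb)))ˣ),
        c = (π : ↥L') ^ ((((p - 1) * e : ℕ) : ℤ) * n) *
          ((ω : ↥(A.comap (algebraMap ↥L' Qb))) : ↥L') :=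
    fun c hc hfix => s44mi_base p A hA L' hπ w.isUnit hw c hc
      (fun g hg => hfix ⟨g, hg⟩)
  have hirr : ∀ b ∈ lg_E ↥L' (M * p), b ^ p ≠ lg_phi ↥L' (fx1 : LaurentSeries ↥L') :=
    m59kv_not_pth_power_E (M * p) two_ne_zero hpp (Dvd.dvd.mul_right hM2 p)
      (fun h => hp2 (h ▸ dvd_rfl)) hirrF
  letI : Algebra ↥L' ↥Lb := s44kz_algK Pk'
  obtain ⟨hRΦ, hRh⟩ := hR (fun _ => rfl)
  exact s44gl_pair ↥L' (A.comap (algebraMap ↥L' Qb)) hπ M p hp2 hpM ζM hζM hin D hbase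
    (fx := lg_phiE (L := ↥L') (N := M * p) fx1) (fv := lg_phiE (L := ↥L') (N := M * p) fv1)
    hy Pk' hirr hβ1 hβ1i hβ10 hX4.1 hX4.2.1 hX4.2.2.1 (hX4.2.2.2 π hπ _ e 1 _ D) hV2.1 hV2.2
    (fun _ => rfl) hRΦ hRh 𝔫 𝔫' h1 h1' hU hU' hσu hσu' ν ν' huS huS' hν hν'

end NF

end Fermat.Agent.M59
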