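/-
M59 (helper20): EVEN-LEVEL twin of helper6's `s44ro_ord` (S44/Res/OrdMain.lean): **(E2-ord)** `s44e_OrdOff A hA M hpM`
for EVERY odd prime `p` (in use `p = 3`) at EVEN level (`2 ∣ M`), as the case `m = p` of `m59res_ord`
(`twfr_OrdOff A hA M hpM p` and `s44e_OrdOff A hA M hpM` are the same statement).  Prefix `m59so_`.
-/
import Mathlib
import Fermat.Agent.S44.Res.Main
import Fermat.Agent.M59.DTwin.Res.OrdMain

set_option autoImplicit false
set_option linter.style.haveILetI false
set_option linter.unusedSectionVars false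
set_option linter.unusedVariables false

noncomputable section

namespace Fermat.Agent.M59

open Fermat.Agent.TW Fermat.Agent.S44 ModularCurve AlgebraicCurve IsLocalRing Fermat.Agent.JT3

local notation "Qb" => AlgebraicClosure ℚ

variable (A : ValuationSubring Qb) {p : ℕ} [hp : Fact p.Prime] (hA : A.LiesOverPrime p)
  (M : ℕ) [NeZero M] [NeZero p] [NeZero (M * p)] (hpM : ¬ p ∣ M)

/-- the two spellings of (E2-ord) agree. -/
theorem m59so_ordOff_iff : s44e_OrdOff A hA M hpM ↔ twfr_OrdOff A hA M hpM p := Iff.rfl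

/-- **(E2-ord)** at even level, every odd prime `p`. -/
theorem m59so_ord (hp2 : p ≠ 2) (hM2 : 2 ∣ M) : s44e_OrdOff A hA M hpM := by
  have hc : Nat.Coprime p 2 := by
    rw [Nat.coprime_comm, Nat.coprime_primes Nat.prime_two hp.out]
    exact fun h => hp2 h.symm
  exact m59res_ord A hA M hpM hp2 hp.out.ne_zero hM2 hc

end Fermat.Agent.M59
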