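/-
M59 (helper20, generator): EVEN-LEVEL twin of `s44mr_unif` (S44/Mono/RationalUnif.lean).  Prefix `m59mr_`.
-/
import Mathlib
import Fermat.Agent.S44.Mono.RationalMain
import Fermat.Agent.S44.Mono.KummerUnif
import Fermat.Agent.S44.Mono.RationalUnif
import Fermat.Agent.M59.DTwin.S44.KummerUnif

set_option autoImplicit false
set_option linter.unusedSectionVars false
set_option linter.style.haveILetI false

noncomputable section

namespace Fermat.Agent.M59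

open Fermat.Agent.S44

open AlgebraicCurve ModularCurve Fermat.Agent.JT3 Fermat.Agent.S24 Fermat.Agent.S28
  Fermat.Agent.SS IntermediateField Polynomial

local notation "Qb" => AlgebraicClosure ℚ
local notation "GQ" => (AlgebraicClosure ℚ ≃ₐ[ℚ] AlgebraicClosure ℚ)

variable (N : ℕ) [NeZero N] {p : ℕ} [hpF : Fact p.Prime]

local notation "FN" => modularFunctionFieldBar N

attribute [local instance] s44kq_lsAction

/-- **(K-UNIF) + [H2-R]**: the Kummer package over every large normal number field `L'`, with the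
zeros and poles of `Φ` and of all `τ^j h` `L'`-rational. -/
theorem m59mr_unif (hN2 : 2 ∣ N) (hp2 : p ≠ 2) {ζ : Qb} (hζ : IsPrimitiveRoot ζ p) (β : Qb) {X : JZero N}
    (hX : p • X = 0) (V : JZero N) (hβ0 : β ≠ 0) (hV : p • V = 0) (hX0 : X ≠ 0) :
    ∃ (T₂ : Finset Qb) (fX fV : FN) (ybar cbar gbar Φbar : LaurentSeries Qb)
      (hbar : ℕ → LaurentSeries Qb),
      s44f_Rep N p X fX ∧ s44f_Rep N p V fV ∧ (fX : LaurentSeries Qb).leadingCoeff = 1 ∧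
      ybar ^ p = lg_phi Qb (fX : LaurentSeries Qb) ∧
      ∀ L' : IntermediateField ℚ Qb, FiniteDimensional ℚ L' → ∀ _ : Normal ℚ L',
        (↑T₂ : Set Qb) ⊆ L' →
        ∃ (ζ1 β1 : ↥L') (fx1 fv1 : ↥(lg_F ↥L' N)) (y c : LaurentSeries ↥L')
          (Lb : Subfield (LaurentSeries ↥L')) (τ : ↥Lb ≃+* ↥Lb) (g Φ h : ↥Lb),
          algebraMap ↥L' Qb ζ1 = ζ ∧ algebraMap ↥L' Qb β1 = β ∧
          ssm_al_iotaF ↥L' N fx1 = fX ∧ ssm_al_iotaF ↥L' N fv1 = fV ∧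
          y ^ p = lg_phi ↥L' (fx1 : LaurentSeries ↥L') ∧
          s44kq_Pack (G := ↥(s44mn_G (s44md_H hζ β hX V) L')) (lg_E ↥L' N).toSubfield p
            (algebraMap ↥L' (LaurentSeries ↥L') ζ1) y (lg_phi ↥L' (fv1 : LaurentSeries ↥L'))
            (algebraMap ↥L' (LaurentSeries ↥L') β1) (s44kq_lc ↥L') Lb τ c g Φ h ∧
          ssm_al_iota ↥L' y = ybar ∧ ssm_al_iota ↥L' c = cbar ∧
          ssm_al_iota ↥L' (g : LaurentSeries ↥L') = gbar ∧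
          ssm_al_iota ↥L' (Φ : LaurentSeries ↥L') = Φbar ∧
          (∀ j : ℕ, ssm_al_iota ↥L' (((⇑τ)^[j] h : ↥Lb) : LaurentSeries ↥L') = hbar j) ∧
          ∀ [Algebra ↥L' ↥Lb],
            (∀ c' : ↥L', ((algebraMap ↥L' ↥Lb c' : ↥Lb) : LaurentSeries ↥L') =
              algebraMap ↥L' (LaurentSeries ↥L') c') →
            (∀ v : Place ↥L' ↥Lb, v.ord Φ ≠ 0 → ss_RatPlace v) ∧
            ∀ (j : ℕ) (v : Place ↥L' ↥Lb), v.ord ((⇑τ)^[j] h) ≠ 0 → ss_RatPlace v := by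
  classical
  have hp0 : p ≠ 0 := hpF.out.ne_zero
  obtain ⟨T₁, fX, fV, ybar, cbar, gbar, Φbar, hbar, hRX, hRV, hlc, hyb, hall⟩ :=
    m59kv_unif N hN2 hp2 hζ β hX V hβ0 hV hX0
  -- a first field
  obtain ⟨L₀, hfd₀, hn₀, hT₁L₀, -⟩ := s44b_exists_nf N ∅ T₁
  haveI := hfd₀
  haveI := hn₀
  obtain ⟨ζ0, β0, fx0, fv0, y₀, c₀, Lb₀, τ₀, g₀, Φ₀, h₀, -, -, -, -, -, P₀, hy₀, -, -, hΦ₀, hh₀⟩ :=
    hall L₀ hfd₀ hn₀ hT₁L₀
  obtain ⟨S₀, hS₀L₀, hS₀fix⟩ := s44mr_exists_stab_fixes L₀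
  -- `ybar` is defined over `ℚ(S₀)`
  have hyb' : ∀ τ ∈ s44mr_stab S₀, coeffMap ((τ : GQ) : Qb →+* Qb) ybar = ybar := by
    intro τ hτ
    rw [← hy₀]
    exact s44mr_coeffMap_fixed hS₀fix y₀ τ hτ
  have hyn : ybar ^ p ∈ lg_E Qb N := by
    rw [hyb]
    refine lg_phi_mem_E Qb N ?_
    rw [lg_F_eq_bar]
    exact fX.2
  -- membership of `Φbar`, `hbar j`
  have hmem : ∀ {x : LaurentSeries ↥L₀}, x ∈ Lb₀ →
      ssm_al_iota ↥L₀ x ∈ lg_E Qb N ⊔ Qb⟮ybar⟯ := by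
    intro x hx
    have := s44mr_kummer_mem_lgE N ↥L₀ y₀ Lb₀ P₀.le P₀.y_mem P₀.gen hx
    rw [← hy₀]
    exact this
  have hΦmem : Φbar ∈ lg_E Qb N ⊔ Qb⟮ybar⟯ := by
    rw [← hΦ₀]; exact hmem Φ₀.2
  have hhmem : ∀ j, hbar j ∈ lg_E Qb N ⊔ Qb⟮ybar⟯ := fun j => by
    rw [← hh₀ j]; exact hmem ((⇑τ₀)^[j] h₀).2
  obtain ⟨sΦ, hsΦ⟩ := s44mr_rational_kummer_lgE.{0} N ybar hyb' hp0 hyn ⟨Φbar, hΦmem⟩
  choose sh hsh using fun j =>
    s44mr_rational_kummer_lgE.{0} N ybar hyb' hp0 hyn ⟨hbar j, hhmem j⟩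
  refine ⟨T₁ ∪ S₀ ∪ sΦ ∪ (Finset.range p).biUnion sh, fX, fV, ybar, cbar, gbar, Φbar, hbar,
    hRX, hRV, hlc, hyb, ?_⟩
  intro L' hfd hn hsub
  have hT₁ : (↑T₁ : Set Qb) ⊆ L' := fun x hx => hsub (by
    simp only [Finset.coe_union, Set.mem_union]; exact Or.inl (Or.inl (Or.inl hx)))
  have hS₀ : (↑S₀ : Set Qb) ⊆ L' := fun x hx => hsub (by
    simp only [Finset.coe_union, Set.mem_union]; exact Or.inl (Or.inl (Or.inr hx)))
  have hsΦL : (↑sΦ : Set Qb) ⊆ L' := fun x hx => hsub (by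
    simp only [Finset.coe_union, Set.mem_union]; exact Or.inl (Or.inr hx))
  have hshL : ∀ j < p, (↑(sh j) : Set Qb) ⊆ L' := fun j hj x hx => hsub (by
    simp only [Finset.coe_union, Set.mem_union]
    refine Or.inr ?_
    rw [Finset.mem_coe, Finset.mem_biUnion]
    exact ⟨j, Finset.mem_range.2 hj, Finset.mem_coe.1 hx⟩)
  have hrange : ∀ {S : Finset Qb}, (↑S : Set Qb) ⊆ L' →
      (↑S : Set Qb) ⊆ Set.range (algebraMap ↥L' Qb) := fun h x hx => ⟨⟨x, h hx⟩, rfl⟩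
  obtain ⟨ζ1, β1, fx1, fv1, y, c, Lb, τ, g, Φ, h, e1, e2, e3, e4, e5, P, hy, hc, hg, hΦ, hh⟩ :=
    hall L' hfd hn hT₁
  refine ⟨ζ1, β1, fx1, fv1, y, c, Lb, τ, g, Φ, h, e1, e2, e3, e4, e5, P, hy, hc, hg, hΦ, hh, ?_⟩
  intro inst halg
  refine ⟨fun v hv => ?_, fun j v hv => ?_⟩
  · exact hsΦ ↥L' y hy Lb halg P.le P.y_mem P.gen (hrange hS₀) (hrange hsΦL) Φ hΦ v hv
  · have hpos : 0 < p := Nat.pos_of_ne_zero hp0
    have hjp : j % p < p := Nat.mod_lt j hpos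
    have hper : (⇑τ)^[j] h = (⇑τ)^[j % p] h := s44mr_iterate_mod (⇑τ) P.τ_pow j h
    rw [hper] at hv
    exact hsh (j % p) ↥L' y hy Lb halg P.le P.y_mem P.gen (hrange hS₀)
      (hrange (hshL (j % p) hjp)) ((⇑τ)^[j % p] h) (hh (j % p)) v hv

end Fermat.Agent.M59

end
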